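import Fermat.Agent.BohrLandau.Approx
import Fermat.Agent.MeanValue.Dirichlet
import Fermat.Agent.SecondMoment.Main

/-!
# The mean square of `ζ (σ + it)` for `σ > 1/2`

`∫_2^T ‖ζ (σ + it)‖² dt ≤ C T` uniformly in `1/2 < σ₀ ≤ σ ≤ 4`, and it is `∼ ζ (2 σ) T`.
-/

set_option autoImplicit false

noncomputable section

namespace FA.BohrLandau

open Finset MeasureTheory Filter
open scoped Real Topology

theorem continuousAt_zeta_vert (σ : ℝ) {t : ℝ} (ht : t ≠ 0) :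
    ContinuousAt (fun u : ℝ => riemannZeta (σ + u * Complex.I)) t := by
  have h1 : (σ + t * Complex.I : ℂ) ≠ 1 := fun h => by
    have := congrArg Complex.im h
    simp at this
    exact ht this
  have hg : ContinuousAt (fun u : ℝ => (σ : ℂ) + u * Complex.I) t :=
    (continuous_const.add (Complex.continuous_ofReal.mul continuous_const)).continuousAt
  exact ContinuousAt.comp (f := fun u : ℝ => (σ : ℂ) + u * Complex.I) (g := riemannZeta)
    (differentiableAt_riemannZeta h1).continuousAt hg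

theorem intervalIntegrable_zeta_sq (σ : ℝ) {a b : ℝ} (ha : 0 < a) (hb : 0 < b) :
    IntervalIntegrable (fun t : ℝ => ‖riemannZeta (σ + t * Complex.I)‖ ^ 2) volume a b :=
  ContinuousOn.intervalIntegrable fun _ ht =>
    ((continuousAt_zeta_vert σ (lt_of_lt_of_le (lt_min ha hb) ht.1).ne').norm.pow
      2).continuousWithinAt

theorem continuous_vertSum (σ : ℝ) (M : ℕ) : Continuous (vertSum σ M) := by
  unfold vertSum
  refine continuous_finsetSum _ fun n hn => ?_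
  have hn0 : (n : ℂ) ≠ 0 := Nat.cast_ne_zero.2 (Nat.one_le_iff_ne_zero.1 (mem_Icc.1 hn).1)
  exact continuous_const.div
    ((continuous_const.add (Complex.continuous_ofReal.mul continuous_const)).const_cpow
      (Or.inl hn0)) fun t => by simp [Complex.cpow_eq_zero_iff, hn0]

theorem intervalIntegrable_vertErr (σ : ℝ) (M : ℕ) {a b : ℝ} (ha : 0 < a) (hb : 0 < b) :
    IntervalIntegrable (fun t => ‖vertErr σ M t‖ ^ 2) volume a b :=
  ContinuousOn.intervalIntegrable fun _ ht =>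
    (((continuousAt_zeta_vert σ (lt_of_lt_of_le (lt_min ha hb) ht.1).ne').sub
      (continuous_vertSum σ M).continuousAt).norm.pow 2).continuousWithinAt

/-- The coefficient sum. -/
def dSum (σ : ℝ) (M : ℕ) : ℝ := ∑ n ∈ Icc 1 M, (n : ℝ) ^ (-(2 * σ))

/-- The error sum. -/
def eSum (σ : ℝ) (M : ℕ) : ℝ := ∑ n ∈ Icc 1 M, (n : ℝ) ^ (1 - 2 * σ)

/-- The mean square of the partial sum. -/
theorem abs_integral_vertSum (σ : ℝ) (M : ℕ) (u v : ℝ) :
    |(∫ t in u..v, ‖vertSum σ M t‖ ^ 2) - (v - u) * dSum σ M| ≤ 6 * π * eSum σ M := by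
  have h := FA.MeanValue.mean_value_dirichlet (fun n => (n : ℂ) ^ (-(σ : ℂ))) M u v
  have e : ∀ t : ℝ, vertSum σ M t =
      ∑ n ∈ Icc 1 M, (n : ℂ) ^ (-(σ : ℂ)) * (n : ℂ) ^ (-(Complex.I * (t : ℂ))) := fun t =>
    sum_congr rfl fun n hn => by
      rw [one_div, ← Complex.cpow_neg, neg_add, Complex.cpow_add _ _
        (Nat.cast_ne_zero.2 (Nat.one_le_iff_ne_zero.1 (mem_Icc.1 hn).1)), mul_comm (t : ℂ)]
  simp only [← e] at h
  have hn : ∀ n ∈ Icc 1 M, ‖(n : ℂ) ^ (-(σ : ℂ))‖ ^ 2 = (n : ℝ) ^ (-(2 * σ)) := fun n hn => by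
    rw [Complex.norm_natCast_cpow_of_pos (mem_Icc.1 hn).1, ← Real.rpow_natCast,
      ← Real.rpow_mul (Nat.cast_nonneg n)]
    simp [mul_comm]
  rw [sum_congr rfl hn] at h
  refine h.trans ?_
  rw [eSum, mul_sum, mul_sum]
  refine sum_le_sum fun n hn' => ?_
  have hn1 : (1 : ℝ) ≤ n := by exact_mod_cast (mem_Icc.1 hn').1
  rw [hn n hn', show (1 - 2 * σ) = -(2 * σ) + 1 by ring, Real.rpow_add (by linarith),
    Real.rpow_one]
  nlinarith [mul_nonneg (mul_nonneg Real.pi_pos.le (Real.rpow_nonneg (Nat.cast_nonneg n)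
    (-(2 * σ)))) (sub_nonneg.2 hn1)]

theorem eSum_le {σ : ℝ} (hσ : 1 / 2 ≤ σ) (M : ℕ) : eSum σ M ≤ M := by
  refine (sum_le_sum (g := fun _ => (1 : ℝ)) fun n hn => ?_).trans (le_of_eq (by simp))
  exact Real.rpow_le_one_of_one_le_of_nonpos (by exact_mod_cast (mem_Icc.1 hn).1) (by linarith)

theorem summable_neg_two_mul {σ : ℝ} (hσ : 1 / 2 < σ) :
    Summable fun n : ℕ => (n : ℝ) ^ (-(2 * σ)) :=
  Real.summable_nat_rpow.2 (by linarith)

theorem dSum_le {σ₀ σ : ℝ} (h0 : 1 / 2 < σ₀) (h : σ₀ ≤ σ) (M : ℕ) :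
    dSum σ M ≤ ∑' n : ℕ, (n : ℝ) ^ (-(2 * σ₀)) := by
  refine le_trans (sum_le_sum fun n hn => ?_)
    ((summable_neg_two_mul h0).sum_le_tsum _ fun n _ => by positivity)
  exact Real.rpow_le_rpow_of_exponent_le (by exact_mod_cast (mem_Icc.1 hn).1) (by linarith)

theorem dSum_nonneg (σ : ℝ) (M : ℕ) : 0 ≤ dSum σ M :=
  sum_nonneg fun n _ => Real.rpow_nonneg (Nat.cast_nonneg n) _

/-- The mean square of the error. -/
theorem integral_vertErr_le {σ T : ℝ} (hσ : 1 / 2 ≤ σ) (hσ4 : σ ≤ 4) (hT : 2 ≤ T) :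
    ∫ t in (2 : ℝ)..T, ‖vertErr σ ⌊T⌋₊ t‖ ^ 2 ≤
      24000000 * (T ^ (1 / 2 - σ)) ^ 2 * T := by
  obtain ⟨M, hM⟩ : ∃ M, M = ⌊T⌋₊ := ⟨_, rfl⟩
  have hM1 : T ≤ (M : ℝ) + 1 := hM ▸ (Nat.lt_floor_add_one T).le
  have hM2 : (M : ℝ) + 1 ≤ 2 * T := by
    have := Nat.floor_le (show (0 : ℝ) ≤ T by linarith)
    rw [← hM] at this
    linarith
  obtain ⟨P, hP⟩ : ∃ P, P = T ^ (1 / 2 - σ) := ⟨_, rfl⟩
  have hP0 : 0 ≤ P := hP ▸ Real.rpow_nonneg (by linarith) _
  have hPM : ((M : ℝ) + 1) ^ (1 / 2 - σ) ≤ P :=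
    hP ▸ Real.rpow_le_rpow_of_nonpos (by linarith) hM1 (by linarith)
  obtain ⟨g, hg⟩ : ∃ g : ℝ → ℝ,
      g = fun t => 8000000 * P ^ 2 + 16000000 * P ^ 2 * T * (1 / t ^ 2) := ⟨_, rfl⟩
  have hne : ∀ x ∈ Set.uIcc (2 : ℝ) T, x ≠ 0 := fun x hx => by
    rw [Set.uIcc_of_le hT] at hx
    linarith [hx.1]
  have hci : ContinuousOn (fun t : ℝ => 1 / t ^ 2) (Set.uIcc (2 : ℝ) T) :=
    continuousOn_const.div (continuousOn_id.pow 2) fun x hx => pow_ne_zero 2 (hne x hx)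
  have hgi : IntervalIntegrable g volume 2 T := by
    rw [hg]
    exact (continuousOn_const.add (continuousOn_const.mul hci)).intervalIntegrable
  have hEi := intervalIntegrable_vertErr σ M two_pos (show 0 < T by linarith)
  rw [← hM, ← hP]
  refine (intervalIntegral.integral_mono_on hT hEi hgi fun t ht => ?_).trans ?_
  · have ht0 : 0 < t := by linarith [ht.1]
    have h := norm_vertErr_le hσ hσ4 ht.1 (ht.2.trans hM1)
    have hq0 : 0 ≤ √((M : ℝ) + 1) / t := by positivity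
    refine (pow_le_pow_left₀ (norm_nonneg _) (h.trans (mul_le_mul_of_nonneg_right
      (mul_le_mul_of_nonneg_left hPM (by norm_num)) (by linarith))) 2).trans ?_
    have hq : (√((M : ℝ) + 1) / t) ^ 2 ≤ 2 * T * (1 / t ^ 2) := by
      rw [div_pow, Real.sq_sqrt (by positivity), mul_one_div]
      exact div_le_div_of_nonneg_right hM2 (sq_nonneg t)
    rw [hg]
    simp only
    have h2 : (1 + √((M : ℝ) + 1) / t) ^ 2 ≤ 2 + 2 * (2 * T * (1 / t ^ 2)) := by
      nlinarith [sq_nonneg (1 - √((M : ℝ) + 1) / t)]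
    rw [mul_pow, mul_pow]
    refine (mul_le_mul_of_nonneg_left h2 (by positivity)).trans (le_of_eq ?_)
    ring
  · simp only [hg]
    rw [intervalIntegral.integral_add intervalIntegrable_const
      (hci.intervalIntegrable.const_mul _), intervalIntegral.integral_const,
      intervalIntegral.integral_const_mul]
    have hd : ∀ x ∈ Set.uIcc (2 : ℝ) T, HasDerivAt (fun y : ℝ => -y⁻¹) (1 / x ^ 2) x :=
      fun x hx => by simpa [one_div] using (hasDerivAt_inv (hne x hx)).fun_neg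
    rw [intervalIntegral.integral_eq_sub_of_hasDerivAt hd hci.intervalIntegrable, smul_eq_mul]
    nlinarith [mul_nonneg (sq_nonneg P) (show 0 ≤ T by linarith),
      mul_nonneg (mul_nonneg (sq_nonneg P) (show 0 ≤ T by linarith))
        (inv_nonneg.2 (show (0 : ℝ) ≤ T by linarith))]

/-- The comparison of the two mean squares. -/
theorem abs_moment_vertSum_le {σ T ε : ℝ} (hσ : 1 / 2 ≤ σ) (hσ4 : σ ≤ 4) (hT : 2 ≤ T)
    (hε : 0 < ε) :
    |(∫ t in (2 : ℝ)..T, ‖riemannZeta (σ + t * Complex.I)‖ ^ 2) -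
        ∫ t in (2 : ℝ)..T, ‖vertSum σ ⌊T⌋₊ t‖ ^ 2| ≤
      ε * (∫ t in (2 : ℝ)..T, ‖vertSum σ ⌊T⌋₊ t‖ ^ 2) +
        (1 + 1 / ε) * (24000000 * (T ^ (1 / 2 - σ)) ^ 2 * T) := by
  have hcZ := intervalIntegrable_zeta_sq σ two_pos (show 0 < T by linarith)
  have hcS : IntervalIntegrable (fun t => ‖vertSum σ ⌊T⌋₊ t‖ ^ 2) volume 2 T :=
    ((continuous_vertSum σ _).norm.pow 2).intervalIntegrable _ _
  have hcE := intervalIntegrable_vertErr σ ⌊T⌋₊ two_pos (show 0 < T by linarith)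
  refine le_trans ?_ (add_le_add le_rfl
    (mul_le_mul_of_nonneg_left (integral_vertErr_le hσ hσ4 hT) (by positivity)))
  rw [← intervalIntegral.integral_sub hcZ hcS, ← intervalIntegral.integral_const_mul,
    ← intervalIntegral.integral_const_mul,
    ← intervalIntegral.integral_add (hcS.const_mul _) (hcE.const_mul _)]
  refine (intervalIntegral.abs_integral_le_integral_abs hT).trans
    (intervalIntegral.integral_mono_on hT (hcZ.sub hcS).abs
      ((hcS.const_mul _).add (hcE.const_mul _)) fun t _ => ?_)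
  exact FA.SecondMoment.abs_sq_norm_sub_le (riemannZeta (σ + t * Complex.I))
    (vertSum σ ⌊T⌋₊ t) hε

/-- **The mean square is `O (T)`, uniformly for `σ₀ ≤ σ ≤ 4`.** -/
theorem exists_meanSquare_le {σ₀ : ℝ} (h0 : 1 / 2 < σ₀) :
    ∃ C, 0 ≤ C ∧ ∀ σ T : ℝ, σ₀ ≤ σ → σ ≤ 4 → 2 ≤ T →
      ∫ t in (2 : ℝ)..T, ‖riemannZeta (σ + t * Complex.I)‖ ^ 2 ≤ C * T := by
  obtain ⟨Z, hZ⟩ : ∃ Z, Z = ∑' n : ℕ, (n : ℝ) ^ (-(2 * σ₀)) := ⟨_, rfl⟩
  have hZ0 : 0 ≤ Z := hZ ▸ tsum_nonneg fun n => by positivity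
  refine ⟨2 * (Z + 20) + 48000000, by positivity, fun σ T hσ hσ4 hT => ?_⟩
  have hT0 : 0 < T := by linarith
  have h := abs_le.1 (abs_moment_vertSum_le (ε := 1) (show 1 / 2 ≤ σ by linarith) hσ4 hT one_pos)
  have hS := (abs_le.1 (abs_integral_vertSum σ ⌊T⌋₊ 2 T)).2
  have hd := dSum_le h0 hσ ⌊T⌋₊
  rw [← hZ] at hd
  have he := (eSum_le (show 1 / 2 ≤ σ by linarith) ⌊T⌋₊).trans (Nat.floor_le hT0.le)
  have hP : (T ^ (1 / 2 - σ)) ^ 2 ≤ 1 :=
    pow_le_one₀ (Real.rpow_nonneg hT0.le _)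
      (Real.rpow_le_one_of_one_le_of_nonpos (by linarith) (by linarith))
  have h6 : 6 * π * eSum σ ⌊T⌋₊ ≤ 20 * T := by
    refine (mul_le_mul_of_nonneg_left he (by positivity)).trans ?_
    nlinarith [Real.pi_lt_d2]
  have h7 : (T - 2) * dSum σ ⌊T⌋₊ ≤ T * Z :=
    mul_le_mul (by linarith) hd (dSum_nonneg _ _) hT0.le
  nlinarith [mul_le_mul_of_nonneg_right hP hT0.le]

/-- The error sum is `o (M)`. -/
theorem tendsto_eSum_div {σ : ℝ} (hσ : 1 / 2 < σ) :
    Tendsto (fun M : ℕ => eSum σ M / M) atTop (𝓝 0) := by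
  have hu : Tendsto (fun n : ℕ => ((n : ℝ) + 1) ^ (1 - 2 * σ)) atTop (𝓝 0) := by
    have h := (tendsto_rpow_neg_atTop (show 0 < 2 * σ - 1 by linarith)).comp
      (tendsto_atTop_add_const_right atTop (1 : ℝ) tendsto_natCast_atTop_atTop)
    simpa [Function.comp_def, neg_sub] using h
  refine hu.cesaro.congr fun M => ?_
  have e : eSum σ M = ∑ i ∈ range M, ((i : ℝ) + 1) ^ (1 - 2 * σ) := by
    rw [eSum]
    induction M with
    | zero => simp
    | succ m ih => rw [sum_Icc_succ_top (by omega), ih, sum_range_succ]; push_cast; ring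
  rw [e, inv_mul_eq_div]

/-- `dSum` tends to the full series. -/
theorem tendsto_dSum {σ : ℝ} (hσ : 1 / 2 < σ) :
    Tendsto (fun M : ℕ => dSum σ M) atTop (𝓝 (∑' n : ℕ, (n : ℝ) ^ (-(2 * σ)))) := by
  refine (((summable_neg_two_mul hσ).hasSum.tendsto_sum_nat).comp
    (tendsto_add_atTop_nat 1)).congr fun M => ?_
  rw [Function.comp_apply, dSum]
  induction M with
  | zero => simp [Real.zero_rpow (show -(2 * σ) ≠ 0 by linarith)]
  | succ m ih => rw [sum_range_succ, ih, sum_Icc_succ_top (by omega)]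

/-- **The mean square on `re s = σ`.** -/
theorem tendsto_meanSquare {σ : ℝ} (hσ : 1 / 2 < σ) (hσ4 : σ ≤ 4) :
    Tendsto (fun T : ℝ => (∫ t in (2 : ℝ)..T, ‖riemannZeta (σ + t * Complex.I)‖ ^ 2) / T) atTop
      (𝓝 (∑' n : ℕ, (n : ℝ) ^ (-(2 * σ)))) := by
  obtain ⟨Z, hZ⟩ : ∃ Z, Z = ∑' n : ℕ, (n : ℝ) ^ (-(2 * σ)) := ⟨_, rfl⟩
  rw [← hZ]
  have hS : Tendsto (fun T : ℝ => (∫ t in (2 : ℝ)..T, ‖vertSum σ ⌊T⌋₊ t‖ ^ 2) / T) atTop
      (𝓝 Z) := by
    have hfl : Tendsto (fun T : ℝ => ⌊T⌋₊) atTop atTop := tendsto_nat_floor_atTop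
    have h1 : Tendsto (fun T : ℝ => (T - 2) / T * dSum σ ⌊T⌋₊) atTop (𝓝 (1 * Z)) := by
      refine Tendsto.mul ?_ (hZ ▸ (tendsto_dSum hσ).comp hfl)
      have := (tendsto_const_nhds (x := (1 : ℝ))).sub
        ((tendsto_const_nhds (x := (2 : ℝ))).div_atTop (tendsto_id (α := ℝ)))
      rw [sub_zero] at this
      refine this.congr' ?_
      filter_upwards [eventually_gt_atTop (0 : ℝ)] with T hT
      simp only [id_eq]
      rw [sub_div, div_self hT.ne']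
    have h2 : Tendsto (fun T : ℝ => 6 * π * (eSum σ ⌊T⌋₊ / (⌊T⌋₊ : ℝ))) atTop (𝓝 0) := by
      simpa using ((tendsto_eSum_div hσ).comp hfl).const_mul (6 * π)
    rw [one_mul] at h1
    refine tendsto_of_tendsto_of_dist h1 (squeeze_zero' (Eventually.of_forall fun T =>
      dist_nonneg) ?_ h2)
    filter_upwards [eventually_ge_atTop (2 : ℝ)] with T hT
    have hM : 0 < (⌊T⌋₊ : ℝ) := Nat.cast_pos.2 (Nat.floor_pos.2 (by linarith))
    rw [Real.dist_eq, div_mul_eq_mul_div, ← sub_div, abs_div,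
      abs_of_pos (show 0 < T by linarith), abs_sub_comm]
    refine (div_le_div_of_nonneg_right (abs_integral_vertSum σ _ 2 T)
      (show 0 ≤ T by linarith)).trans ?_
    rw [mul_div_assoc]
    exact mul_le_mul_of_nonneg_left (div_le_div_of_nonneg_left
      (sum_nonneg fun n _ => Real.rpow_nonneg (Nat.cast_nonneg n) _) hM
      (Nat.floor_le (by linarith))) (by positivity)
  refine Metric.tendsto_nhds.2 fun δ hδ => ?_
  have hZ0 : 0 ≤ Z := hZ ▸ tsum_nonneg fun n => by positivity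
  obtain ⟨ε, hε⟩ : ∃ ε, ε = δ / (4 * (Z + 1)) := ⟨_, rfl⟩
  have hε0 : 0 < ε := hε ▸ by positivity
  have h3 : Tendsto (fun T : ℝ => (1 + 1 / ε) * (24000000 * (T ^ (1 / 2 - σ)) ^ 2)) atTop
      (𝓝 0) := by
    have := (tendsto_rpow_neg_atTop (show 0 < σ - 1 / 2 by linarith)).pow 2
    simpa [neg_sub] using (this.const_mul (24000000 : ℝ)).const_mul (1 + 1 / ε)
  filter_upwards [Metric.tendsto_nhds.1 hS (min (δ / 4) 1) (by positivity),
    h3.eventually_lt_const (show (0 : ℝ) < δ / 4 by linarith), eventually_ge_atTop (2 : ℝ)]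
    with T hT h3T hT2
  have hT0 : 0 < T := by linarith
  rw [Real.dist_eq] at hT ⊢
  have h := div_le_div_of_nonneg_right (abs_moment_vertSum_le hσ.le hσ4 hT2 hε0) hT0.le
  rw [← abs_of_pos hT0, ← abs_div, abs_of_pos hT0, sub_div, add_div, mul_div_assoc,
    ← mul_assoc (1 + 1 / ε), mul_div_cancel_right₀ _ hT0.ne'] at h
  obtain ⟨hb1, hb2⟩ := abs_lt.1 hT
  have hd1 := min_le_left (δ / 4) 1
  have hd2 := min_le_right (δ / 4) 1
  have h4 : ε * ((∫ t in (2 : ℝ)..T, ‖vertSum σ ⌊T⌋₊ t‖ ^ 2) / T) ≤ δ / 4 := by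
    refine (mul_le_mul_of_nonneg_left (b := (∫ t in (2 : ℝ)..T, ‖vertSum σ ⌊T⌋₊ t‖ ^ 2) / T)
      (c := Z + 1) (by linarith) hε0.le).trans (le_of_eq ?_)
    rw [hε]
    field_simp
  obtain ⟨hc1, hc2⟩ := abs_le.1 h
  rw [abs_lt]
  constructor <;> linarith

end FA.BohrLandau
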