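import Fermat.Agent.SecondMoment.Approx

/-!
# The truncation of `ζ (σ + it)` for `1/2 ≤ σ ≤ 4`

The error at `M` is `O ((M + 1) ^ (1/2 - σ) * (1 + √(M + 1) / t))` for `2 ≤ t ≤ M + 1`.
-/

set_option autoImplicit false

noncomputable section

namespace FA.BohrLandau

open Finset
open FA.Subconvexity (expI phase)
open scoped Real

/-- A term of the series. -/
theorem term_eq_rpow {σ t : ℝ} {n : ℕ} (hn : 1 ≤ n) :
    1 / (n : ℂ) ^ ((σ : ℂ) + t * Complex.I) =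
      (((n : ℝ) ^ (-σ) : ℝ) : ℂ) * expI (phase t n) := by
  have hn0 : (0 : ℝ) < n := Nat.cast_pos.2 hn
  have hnC : (n : ℂ) ≠ 0 := Nat.cast_ne_zero.2 (by omega)
  rw [Complex.cpow_add _ _ hnC, one_div, mul_inv, expI, phase]
  congr 1
  · rw [Real.rpow_neg hn0.le, Complex.ofReal_inv, Complex.ofReal_cpow hn0.le,
      Complex.ofReal_natCast]
  · rw [Complex.cpow_def_of_ne_zero hnC, ← Complex.exp_neg, ← Complex.natCast_log]
    push_cast
    ring_nf

/-- Decreasing the exponent from `1/2` to `σ`. -/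
theorem rpow_neg_le {σ A x : ℝ} (hσ : 1 / 2 ≤ σ) (hA : 0 < A) (hx : A ≤ x) :
    x ^ (-σ) ≤ A ^ (1 / 2 - σ) * (1 / √x) := by
  have hx0 : 0 < x := hA.trans_le hx
  have e : x ^ (-σ) = x ^ (1 / 2 - σ) * (1 / √x) := by
    rw [Real.sqrt_eq_rpow, one_div (x ^ (1 / 2 : ℝ)), ← Real.rpow_neg hx0.le, ← Real.rpow_add hx0]
    ring_nf
  rw [e]
  exact mul_le_mul_of_nonneg_right (Real.rpow_le_rpow_of_nonpos hA hx (by linarith))
    (by positivity)

/-- A block with its weights. -/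
theorem norm_zeta_block_line_le {σ t A : ℝ} (hσ : 1 / 2 ≤ σ) (hA : 0 < A) (ht : 1 ≤ t) {a b : ℕ}
    (hta : t ≤ a) (hAa : A ≤ a) (hab : a ≤ b) (hb : b ≤ 2 * a) :
    ‖∑ n ∈ Ico a b, 1 / (n : ℂ) ^ ((σ : ℂ) + t * Complex.I)‖ ≤
      A ^ (1 / 2 - σ) * (1 / √(a : ℝ) + 4 * π * √(a : ℝ) / t) := by
  have ha0 : (0 : ℝ) < a := by linarith
  have ha1 : 1 ≤ a := Nat.one_le_iff_ne_zero.2 (Nat.cast_ne_zero.1 ha0.ne')
  rw [sum_congr rfl fun n hn => term_eq_rpow (σ := σ) (t := t) (ha1.trans (mem_Ico.1 hn).1)]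
  refine (FA.Subconvexity.norm_sum_weight_le (w := fun n => (n : ℝ) ^ (-σ))
    (B := 1 + 4 * π * a / t) hab (fun m _ _ => by positivity) (fun m hm _ => ?_)
    fun m hm hm' => FA.SecondMoment.norm_tail_block_le ht hta (hm'.trans hb)).trans ?_
  · exact Real.rpow_le_rpow_of_nonpos (Nat.cast_pos.2 (ha1.trans hm))
      (Nat.cast_le.2 m.le_succ) (by linarith)
  · refine (mul_le_mul_of_nonneg_right (rpow_neg_le hσ hA hAa) (by positivity)).trans
      (le_of_eq ?_)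
    obtain ⟨q, hq⟩ : ∃ q, q = √(a : ℝ) := ⟨_, rfl⟩
    have hq0 : 0 < q := hq ▸ Real.sqrt_pos.2 ha0
    have hqa : (a : ℝ) = q * q := by rw [hq, Real.mul_self_sqrt ha0.le]
    simp only [← hq]
    rw [hqa]
    field_simp

/-- The sum over `[a, b)` for `t ≤ a`. -/
theorem norm_zeta_tail_line_le {σ t A : ℝ} (hσ : 1 / 2 ≤ σ) (hA : 0 < A) (ht : 1 ≤ t) :
    ∀ (d a b : ℕ), b - a = d → t ≤ a → A ≤ a → a ≤ b →
    ‖∑ n ∈ Ico a b, 1 / (n : ℂ) ^ ((σ : ℂ) + t * Complex.I)‖ ≤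
      A ^ (1 / 2 - σ) * (4 / √(a : ℝ) + (44 * √(b : ℝ) - 31 * √(a : ℝ)) / t) := by
  intro d
  induction d using Nat.strong_induction_on with
  | h d ih =>
    intro a b hd hta hAa hab
    have ht0 : 0 < t := by linarith
    have ha0 : (0 : ℝ) < a := by linarith
    have hsa : 0 < √(a : ℝ) := Real.sqrt_pos.2 ha0
    have hsab : √(a : ℝ) ≤ √(b : ℝ) := Real.sqrt_le_sqrt (Nat.cast_le.2 hab)
    have hP : 0 ≤ A ^ (1 / 2 - σ) := Real.rpow_nonneg hA.le _
    rcases le_or_gt b (2 * a) with hb | hb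
    · refine (norm_zeta_block_line_le hσ hA ht hta hAa hab hb).trans
        (mul_le_mul_of_nonneg_left (add_le_add ?_ ?_) hP)
      · exact div_le_div_of_nonneg_right (by norm_num) hsa.le
      · refine div_le_div_of_nonneg_right ?_ ht0.le
        nlinarith [Real.pi_lt_d2]
    · rw [← sum_Ico_consecutive _ (show a ≤ 2 * a by omega) hb.le]
      have ha1 : 0 < a := Nat.cast_pos.1 ha0
      have h2a : t ≤ ((2 * a : ℕ) : ℝ) := by push_cast; linarith
      refine (norm_add_le _ _).trans ((add_le_add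
        (norm_zeta_block_line_le hσ hA ht hta hAa (show a ≤ 2 * a by omega) le_rfl)
        (ih (b - 2 * a) (by omega) (2 * a) b rfl h2a (by push_cast; linarith) hb.le)).trans ?_)
      rw [← mul_add]
      refine mul_le_mul_of_nonneg_left ?_ hP
      push_cast
      rw [Real.sqrt_mul (by norm_num : (0 : ℝ) ≤ 2)]
      have hr2 : (141 : ℝ) / 100 ≤ √2 := Real.le_sqrt_of_sq_le (by norm_num)
      have e1 : 1 / √(a : ℝ) + 4 / (√2 * √(a : ℝ)) ≤ 4 / √(a : ℝ) := by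
        rw [show 4 / (√2 * √(a : ℝ)) = (4 / √2) / √(a : ℝ) by rw [div_div], ← add_div]
        refine div_le_div_of_nonneg_right ?_ hsa.le
        have : 4 / √2 ≤ 3 := by rw [div_le_iff₀ (by linarith)]; linarith
        linarith
      have e2 : 4 * π * √(a : ℝ) / t + (44 * √(b : ℝ) - 31 * (√2 * √(a : ℝ))) / t ≤
          (44 * √(b : ℝ) - 31 * √(a : ℝ)) / t := by
        rw [← add_div]
        refine div_le_div_of_nonneg_right ?_ ht0.le
        nlinarith [mul_nonneg (sub_nonneg.2 hr2) hsa.le, Real.pi_lt_d2]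
      linarith

/-- The partial sum on the line `re s = σ`. -/
def vertSum (σ : ℝ) (M : ℕ) (t : ℝ) : ℂ :=
  ∑ n ∈ Icc 1 M, 1 / (n : ℂ) ^ ((σ : ℂ) + t * Complex.I)

/-- The error of the truncation at `M`. -/
def vertErr (σ : ℝ) (M : ℕ) (t : ℝ) : ℂ := riemannZeta (σ + t * Complex.I) - vertSum σ M t

/-- **The approximation of `ζ (σ + it)` by its partial sum.** -/
theorem norm_vertErr_le {σ t : ℝ} (hσ : 1 / 2 ≤ σ) (hσ4 : σ ≤ 4) (ht : 2 ≤ t) {M : ℕ}
    (hM : t ≤ (M : ℝ) + 1) :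
    ‖vertErr σ M t‖ ≤ 2000 * ((M : ℝ) + 1) ^ (1 / 2 - σ) * (1 + √((M : ℝ) + 1) / t) := by
  have ht0 : 0 < t := by linarith
  set s : ℂ := σ + t * Complex.I with hs
  have hre : s.re = σ := by simp [hs]
  have him : s.im = t := by simp [hs]
  have hs1 : s ≠ 1 := fun h => by
    have := congrArg Complex.im h
    simp [him] at this
    linarith
  obtain ⟨X, hX⟩ : ∃ X, X = max M ⌈t ^ 2⌉₊ := ⟨_, rfl⟩
  have hMX : M ≤ X := hX ▸ le_max_left _ _
  have hXlo : t ^ 2 ≤ (X : ℝ) := (Nat.le_ceil _).trans (Nat.cast_le.2 (hX ▸ le_max_right _ _))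
  have hXhi : (X : ℝ) + 1 ≤ ((M : ℝ) + 1) + 4 * t ^ 2 := by
    have := (Nat.ceil_lt_add_one (sq_nonneg t)).le
    rw [hX, Nat.cast_max]
    have hM0 : (0 : ℝ) ≤ M := Nat.cast_nonneg M
    rcases le_total (M : ℝ) (⌈t ^ 2⌉₊ : ℝ) with h | h
    · rw [max_eq_right h]; nlinarith
    · rw [max_eq_left h]; nlinarith
  have hX1 : 1 ≤ X := by
    have : (1 : ℝ) ≤ X := le_trans (by nlinarith) hXlo
    exact_mod_cast this
  have hX0 : (0 : ℝ) < X := Nat.cast_pos.2 hX1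
  have hsX : t ≤ √(X : ℝ) := Real.le_sqrt_of_sq_le hXlo
  obtain ⟨Q, hQ⟩ : ∃ Q, Q = √((M : ℝ) + 1) / t := ⟨_, rfl⟩
  have hQ0 : 0 ≤ Q := hQ ▸ by positivity
  obtain ⟨P, hP⟩ : ∃ P, P = ((M : ℝ) + 1) ^ (1 / 2 - σ) := ⟨_, rfl⟩
  have hP0 : 0 ≤ P := hP ▸ Real.rpow_nonneg (by positivity) _
  have hXP : (X : ℝ) ^ (1 / 2 - σ) ≤ 16 * P := by
    have hhalf : ((M : ℝ) + 1) / 2 ≤ X := by
      have : (M : ℝ) ≤ X := Nat.cast_le.2 hMX
      have : (1 : ℝ) ≤ X := by exact_mod_cast hX1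
      linarith
    refine (Real.rpow_le_rpow_of_nonpos (by positivity) hhalf (by linarith)).trans ?_
    rw [hP, Real.div_rpow (by positivity) two_pos.le, div_eq_mul_inv, ← Real.rpow_neg two_pos.le,
      mul_comm]
    refine mul_le_mul_of_nonneg_right ?_ (Real.rpow_nonneg (by positivity) _)
    calc (2 : ℝ) ^ (-(1 / 2 - σ)) ≤ 2 ^ (4 : ℝ) :=
          Real.rpow_le_rpow_of_exponent_le one_le_two (by linarith)
      _ = 16 := by norm_num
  have hsX2 : √((X : ℝ) + 1) / t ≤ Q + 2 := by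
    rw [hQ, div_add' _ _ _ ht0.ne']
    refine div_le_div_of_nonneg_right ?_ ht0.le
    rw [Real.sqrt_le_iff]
    refine ⟨by positivity, hXhi.trans ?_⟩
    nlinarith [Real.sq_sqrt (show (0 : ℝ) ≤ (M : ℝ) + 1 by positivity),
      Real.sqrt_nonneg ((M : ℝ) + 1)]
  have t1 : ‖∑ n ∈ Ico (M + 1) (X + 1), 1 / (n : ℂ) ^ s‖ ≤ P * (4 + 44 * (Q + 2)) := by
    have h := norm_zeta_tail_line_le (A := (M : ℝ) + 1) hσ (by positivity)
      (show 1 ≤ t by linarith) _ (M + 1) (X + 1) rfl (by push_cast; exact hM) (by simp)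
      (by omega)
    rw [← hs, ← hP] at h
    refine h.trans (mul_le_mul_of_nonneg_left ?_ hP0)
    push_cast
    have h1 : 1 ≤ √((M : ℝ) + 1) := Real.one_le_sqrt.2 (by
      linarith [(Nat.cast_nonneg M : (0 : ℝ) ≤ M)])
    refine add_le_add (div_le_self (by norm_num) h1) ?_
    calc (44 * √((X : ℝ) + 1) - 31 * √((M : ℝ) + 1)) / t ≤ 44 * √((X : ℝ) + 1) / t :=
          div_le_div_of_nonneg_right (by linarith [Real.sqrt_nonneg ((M : ℝ) + 1)]) ht0.le
      _ = 44 * (√((X : ℝ) + 1) / t) := mul_div_assoc _ _ _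
      _ ≤ _ := by linarith
  have t2 : ‖(X : ℂ) ^ (1 - s) / (s - 1)‖ ≤ 16 * P * (Q + 2) := by
    rw [norm_div, Complex.norm_natCast_cpow_of_pos hX1, Complex.sub_re, Complex.one_re, hre,
      show (1 : ℝ) - σ = (1 / 2 - σ) + 1 / 2 by ring, Real.rpow_add hX0, ← Real.sqrt_eq_rpow,
      mul_div_assoc]
    have h1 : t ≤ ‖s - 1‖ := by
      have := Complex.abs_im_le_norm (s - 1)
      rw [Complex.sub_im, him, Complex.one_im, sub_zero, abs_of_pos ht0] at this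
      exact this
    refine mul_le_mul hXP (le_trans ?_ hsX2) (by positivity) (by positivity)
    exact (div_le_div_of_nonneg_left (Real.sqrt_nonneg _) ht0 h1).trans
      (div_le_div_of_nonneg_right (Real.sqrt_le_sqrt (by linarith)) ht0.le)
  have t3 : ‖s * ∫ u in Set.Ioi (X : ℝ),
      ((u - (⌊u⌋₊ : ℝ) : ℝ) : ℂ) * (u : ℂ) ^ (-(s + 1))‖ ≤ 96 * P := by
    have hi : ‖∫ u in Set.Ioi (X : ℝ), ((u - (⌊u⌋₊ : ℝ) : ℝ) : ℂ) * (u : ℂ) ^ (-(s + 1))‖ ≤
        (X : ℝ) ^ (-s.re) / s.re := by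
      refine (MeasureTheory.norm_integral_le_of_norm_le
        (integrableOn_Ioi_rpow_of_lt (a := -(s.re + 1)) (by rw [hre]; linarith) hX0) ?_).trans
        (le_of_eq ?_)
      · filter_upwards [MeasureTheory.ae_restrict_mem measurableSet_Ioi] with u hu
        exact CycloGrowth.norm_fracIntegrand_le (lt_of_le_of_lt (Nat.one_le_cast.2 hX1) hu)
      · rw [integral_Ioi_rpow_of_lt (by rw [hre]; linarith) hX0,
          show -(s.re + 1) + 1 = -s.re by ring, neg_div_neg_eq]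
    rw [norm_mul]
    have hn : ‖s‖ ≤ 3 * t := by
      have := Complex.norm_le_abs_re_add_abs_im s
      rw [hre, him, abs_of_pos ht0, abs_of_pos (by linarith : (0 : ℝ) < σ)] at this
      linarith
    refine (mul_le_mul hn hi (norm_nonneg _) (by linarith)).trans ?_
    rw [hre]
    have e : (X : ℝ) ^ (-σ) = (X : ℝ) ^ (1 / 2 - σ) * (√(X : ℝ))⁻¹ := by
      rw [Real.sqrt_eq_rpow, ← Real.rpow_neg hX0.le, ← Real.rpow_add hX0]
      ring_nf
    have hx1 : t * (√(X : ℝ))⁻¹ ≤ 1 := by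
      rw [mul_inv_le_iff₀ (Real.sqrt_pos.2 hX0)]; linarith
    calc 3 * t * ((X : ℝ) ^ (-σ) / σ)
        = 3 / σ * ((X : ℝ) ^ (1 / 2 - σ) * (t * (√(X : ℝ))⁻¹)) := by rw [e]; ring
      _ ≤ 6 * (16 * P * 1) := by
          refine mul_le_mul ?_ (mul_le_mul hXP hx1 (by positivity) (by positivity))
            (by positivity) (by norm_num)
          rw [div_le_iff₀ (by linarith)]
          linarith
      _ = 96 * P := by ring
  rw [vertErr, vertSum, ← hs, FA.ZeroFree.riemannZeta_truncated (by rw [hre]; linarith) hs1 hX1,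
    show Icc 1 X = Icc 1 M ∪ Ico (M + 1) (X + 1) by
      ext i; simp only [mem_union, mem_Icc, mem_Ico]; omega,
    sum_union (disjoint_left.2 fun i ha hb => by
      simp only [mem_Icc, mem_Ico] at ha hb; omega), ← hQ, ← hP]
  refine le_trans (le_of_eq (congrArg norm ?_))
    ((norm_sub_le _ _).trans ((add_le_add ((norm_add_le _ _).trans (add_le_add t1 t2)) t3).trans
      ?_))
  · ring
  · nlinarith [mul_nonneg hP0 hQ0]

end FA.BohrLandau
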