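import Fermat.Agent.BohrLandau.MeanSquare
import Fermat.Agent.RiemannMangoldt.Main
import Mathlib.Analysis.Complex.JensenFormula

/-!
# The zeros to the right of the critical line (Bohr–Landau)

Jensen's inequality on circles centred on `re s = 2` and the mean square give `O (T)` zeros with
`re ρ ≥ σ > 1/2` and `|im ρ| ≤ T`, so almost all zeros are near the critical line.
-/

set_option autoImplicit false

noncomputable section

namespace FA.BohrLandau

open Finset Complex MeasureTheory Metric Filter FA.RiemannMangoldt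
open scoped Real Topology ComplexConjugate

/-- The multiplicity of a zero. -/
def zetaMult (ρ : ℂ) : ℕ := analyticOrderNatAt riemannZeta ρ

theorem two_sub_zeta_two_le_re (y : ℝ) :
    2 - π ^ 2 / 6 ≤ (riemannZeta (((2 : ℝ) : ℂ) + y * I)).re := by
  have hs : (((2 : ℝ) : ℂ) + y * I).re = 2 := by simp
  have hS : LSeriesSummable 1 (((2 : ℝ) : ℂ) + y * I) :=
    LSeriesSummable_one_iff.2 (by rw [hs]; norm_num)
  have h2 : HasSum (fun n : ℕ => (LSeries.term 1 (((2 : ℝ) : ℂ) + y * I) n).re)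
      (riemannZeta (((2 : ℝ) : ℂ) + y * I)).re := by
    rw [← LSeries_one_eq_riemannZeta (by rw [hs]; norm_num)]
    exact Complex.hasSum_re hS.hasSum
  have h1 : HasSum (fun n : ℕ => 1 / (n : ℝ) ^ 2) (π ^ 2 / 6) := hasSum_zeta_two
  have hle : ∀ n : ℕ, (if n = 1 then 2 else 0) - 1 / (n : ℝ) ^ 2 ≤
      (LSeries.term 1 (((2 : ℝ) : ℂ) + y * I) n).re := by
    intro n
    rcases eq_or_ne n 1 with rfl | h1
    · norm_num [LSeries.term_of_ne_zero one_ne_zero]
    rcases eq_or_ne n 0 with rfl | h0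
    · simp
    rw [if_neg h1, zero_sub]
    refine le_trans ?_ (neg_le_of_abs_le (Complex.abs_re_le_norm _))
    rw [LSeries.norm_term_eq, if_neg h0, hs, Pi.one_apply, norm_one, Real.rpow_two]
  exact hasSum_le hle ((hasSum_ite_eq 1 (2 : ℝ)).sub h1) h2

theorem neg_two_le_log_norm_zeta_two (y : ℝ) :
    -2 ≤ Real.log ‖riemannZeta (((2 : ℝ) : ℂ) + y * I)‖ := by
  have h := (two_sub_zeta_two_le_re y).trans (Complex.re_le_norm _)
  have h1 : (0.34 : ℝ) ≤ 2 - π ^ 2 / 6 := by nlinarith [Real.pi_lt_d2, Real.pi_pos]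
  rw [Real.le_log_iff_exp_le (by linarith)]
  have h2 : Real.exp (-2) ≤ 1 / 3 := by
    rw [Real.exp_neg, inv_le_comm₀ (Real.exp_pos 2) (by norm_num)]
    linarith [Real.add_one_le_exp (2 : ℝ)]
  linarith

/-- **Jensen's inequality**, against the mean square on the circle. -/
theorem mult_mul_log_le {y r R : ℝ} (hy : 2 ≤ |y|) (hr : 0 < r) (hrR : r < R) (hR : R ≤ 3 / 2)
    (F : Finset ℂ) (hF : ∀ ρ ∈ F, ‖((2 : ℝ) : ℂ) + y * I - ρ‖ ≤ r) :
    (∑ ρ ∈ F, (zetaMult ρ : ℝ)) * Real.log (R / r) ≤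
      Real.circleAverage (fun z => ‖riemannZeta z‖ ^ 2) (((2 : ℝ) : ℂ) + y * I) R + 2 := by
  classical
  obtain ⟨c, hc⟩ : ∃ c : ℂ, c = ((2 : ℝ) : ℂ) + y * I := ⟨_, rfl⟩
  rw [← hc] at hF ⊢
  have hR0 : 0 < R := hr.trans hrR
  have hne : ∀ z ∈ closedBall c |R|, z ≠ 1 := fun z hz h1 => by
    rw [mem_closedBall, dist_eq_norm, abs_of_pos hR0] at hz
    have := (Complex.abs_im_le_norm (z - c)).trans hz
    rw [h1, hc] at this
    simp at this
    linarith
  have han : AnalyticOnNhd ℂ riemannZeta (closedBall c |R|) := fun z hz =>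
    DifferentiableOn.analyticAt (s := {(1 : ℂ)}ᶜ)
      (fun w hw => (differentiableAt_riemannZeta hw).differentiableWithinAt)
      (isOpen_compl_singleton.mem_nhds (hne z hz))
  have hlow := neg_two_le_log_norm_zeta_two y
  rw [← hc] at hlow
  have h2 : riemannZeta c ≠ 0 := fun h => by
    have h' := (two_sub_zeta_two_le_re y)
    rw [← hc, h] at h'
    norm_num at h'
    nlinarith [Real.pi_lt_d2, Real.pi_pos]
  have hJ := han.circleAverage_log_norm hR0.ne' h2
  obtain ⟨φ, hφ⟩ : ∃ φ : ℂ → ℝ, φ = fun u =>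
      (MeromorphicOn.divisor riemannZeta (closedBall c |R|) u : ℝ) *
        Real.log (R * ‖c - u‖⁻¹) := ⟨_, rfl⟩
  have hφ0 : ∀ u, 0 ≤ φ u := fun u => by
    rw [hφ]
    by_cases hu : u ∈ closedBall c |R|
    · refine mul_nonneg (mod_cast MeromorphicOn.AnalyticOnNhd.divisor_nonneg han u) ?_
      rcases eq_or_ne u c with rfl | huc
      · simp
      rw [mem_closedBall, dist_eq_norm', abs_of_pos hR0] at hu
      refine Real.log_nonneg ?_
      rw [← div_eq_mul_inv, le_div_iff₀ (norm_pos_iff.2 (sub_ne_zero.2 huc.symm)), one_mul]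
      exact hu
    · simp [hu]
  have hφfin : (Function.support φ).Finite := by
    refine ((MeromorphicOn.divisor riemannZeta (closedBall c |R|)).finiteSupport
      (isCompact_closedBall _ _)).subset fun u hu => ?_
    rw [hφ] at hu
    simp only [Function.mem_support] at hu ⊢
    intro h
    simp [h] at hu
  have hterm : ∀ ρ ∈ F, (zetaMult ρ : ℝ) * Real.log (R / r) ≤ φ ρ := by
    intro ρ hρ
    have hd := hF ρ hρ
    have hmem : ρ ∈ closedBall c |R| := by
      rw [mem_closedBall, dist_eq_norm', abs_of_pos hR0]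
      linarith
    rcases eq_or_ne ρ c with rfl | hρc
    · have h0 : analyticOrderAt riemannZeta ρ = 0 :=
        (han ρ hmem).analyticOrderAt_eq_zero.2 h2
      simp [zetaMult, analyticOrderNatAt, h0, hφ]
    have e : (MeromorphicOn.divisor riemannZeta (closedBall c |R|) ρ : ℝ) = zetaMult ρ := by
      rw [MeromorphicOn.AnalyticOnNhd.divisor_apply han hmem, zetaMult, analyticOrderNatAt]
      cases analyticOrderAt riemannZeta ρ <;> simp
    have hp : 0 < ‖c - ρ‖ := norm_pos_iff.2 (sub_ne_zero.2 hρc.symm)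
    rw [hφ]
    simp only
    rw [e]
    refine mul_le_mul_of_nonneg_left (Real.log_le_log (div_pos hR0 hr) ?_) (Nat.cast_nonneg _)
    rw [← div_eq_mul_inv]
    exact div_le_div_of_nonneg_left hR0.le hp hd
  have hsum : ∑ ρ ∈ F, φ ρ ≤ ∑ᶠ u, φ u := by
    rw [finsum_eq_sum_of_support_subset φ (s := hφfin.toFinset ∪ F) (by intro u hu; simp [hu])]
    exact sum_le_sum_of_subset_of_nonneg subset_union_right fun u _ _ => hφ0 u
  have hm : ∀ x ∈ sphere c |R|, Real.log ‖riemannZeta x‖ ≤ ‖riemannZeta x‖ ^ 2 := fun x _ => by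
    rcases (norm_nonneg (riemannZeta x)).eq_or_lt with h | h
    · rw [← h]; simp
    · nlinarith [Real.log_le_sub_one_of_pos h, sq_nonneg (‖riemannZeta x‖ - 1)]
  have hi1 : CircleIntegrable (fun z => Real.log ‖riemannZeta z‖) c R :=
    (han.mono sphere_subset_closedBall).meromorphicOn.circleIntegrable_log_norm
  have hi2 : CircleIntegrable (fun z => ‖riemannZeta z‖ ^ 2) c R := by
    refine ContinuousOn.intervalIntegrable fun θ _ => ?_
    exact (((differentiableAt_riemannZeta (hne _ (sphere_subset_closedBall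
      (circleMap_mem_sphere' c R θ)))).continuousAt.comp
        (continuous_circleMap c R).continuousAt).norm.pow 2).continuousWithinAt
  have hup := Real.circleAverage_mono hi1 hi2 hm
  simp only [hφ] at hsum
  rw [sum_mul]
  refine (sum_le_sum hterm).trans ?_
  simp only [hφ]
  linarith

/-- The height coordinates. -/
theorem norm_zeta_neg (a x : ℝ) :
    ‖riemannZeta (a + (-x : ℝ) * I)‖ = ‖riemannZeta (a + x * I)‖ := by
  rw [← Complex.norm_conj, ← riemannZeta_conj]
  congr 2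
  simp

/-- The integral of one circle average over the centres. -/
theorem integral_circleAverage_le {σ₀ C R T e : ℝ}
    (hC : ∀ σ T : ℝ, σ₀ ≤ σ → σ ≤ 4 → 2 ≤ T →
      ∫ t in (2 : ℝ)..T, ‖riemannZeta (σ + t * I)‖ ^ 2 ≤ C * T)
    (hR0 : 0 < R) (hR : R ≤ 3 / 2) (hσR : σ₀ ≤ 2 - R) (hT : 5 ≤ T) (he : e = 1 ∨ e = -1) :
    IntervalIntegrable (fun t : ℝ => Real.circleAverage (fun z => ‖riemannZeta z‖ ^ 2)
        (((2 : ℝ) : ℂ) + (e * t : ℝ) * I) R) volume 4 (T + 1) ∧
      ∫ t in (4 : ℝ)..(T + 1), Real.circleAverage (fun z => ‖riemannZeta z‖ ^ 2)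
        (((2 : ℝ) : ℂ) + (e * t : ℝ) * I) R ≤ C * (T + 3) := by
  obtain ⟨G, hG⟩ : ∃ G : ℝ → ℝ → ℝ, G = fun t θ =>
      ‖riemannZeta ((2 + R * Real.cos θ : ℝ) + (t + e * (R * Real.sin θ) : ℝ) * I)‖ ^ 2 :=
    ⟨_, rfl⟩
  have hb : ∀ θ : ℝ, |e * (R * Real.sin θ)| ≤ R := fun θ => by
    rw [abs_mul, show |e| = 1 by rcases he with h | h <;> simp [h], one_mul, abs_mul,
      abs_of_pos hR0]
    exact mul_le_of_le_one_right hR0.le (Real.abs_sin_le_one θ)
  have hGc : ContinuousOn (Function.uncurry G) (Set.Icc 4 (T + 1) ×ˢ Set.univ) := by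
    rw [hG]
    intro p hp
    have h0 : p.1 + e * (R * Real.sin p.2) ≠ 0 := by
      have := (abs_le.1 (hb p.2)).1
      have := hp.1.1
      linarith
    have h1 : (((2 + R * Real.cos p.2 : ℝ) : ℂ) +
        (p.1 + e * (R * Real.sin p.2) : ℝ) * I) ≠ 1 := fun h => h0 (by
      have := congrArg Complex.im h
      simpa [Complex.sin_ofReal_re] using this)
    have hc : ContinuousAt (fun q : ℝ × ℝ => ((2 + R * Real.cos q.2 : ℝ) : ℂ) +
        (q.1 + e * (R * Real.sin q.2) : ℝ) * I) p := by fun_prop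
    exact ((ContinuousAt.comp (f := fun q : ℝ × ℝ => ((2 + R * Real.cos q.2 : ℝ) : ℂ) +
      (q.1 + e * (R * Real.sin q.2) : ℝ) * I) (g := riemannZeta)
        (differentiableAt_riemannZeta h1).continuousAt hc).norm.pow 2).continuousWithinAt
  have hpt : ∀ t θ, ‖riemannZeta (circleMap (((2 : ℝ) : ℂ) + (e * t : ℝ) * I) R θ)‖ ^ 2 =
      G t θ := by
    intro t θ
    have harg : circleMap (((2 : ℝ) : ℂ) + (e * t : ℝ) * I) R θ =
        ((2 + R * Real.cos θ : ℝ) : ℂ) + (e * t + R * Real.sin θ : ℝ) * I := by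
      rw [circleMap, Complex.exp_mul_I, ← Complex.ofReal_cos, ← Complex.ofReal_sin]
      push_cast
      ring
    rw [harg, hG]
    simp only
    congr 1
    rcases he with rfl | rfl
    · ring_nf
    · rw [← norm_zeta_neg]
      congr 4
      push_cast
      ring
  have hca : ∀ t, Real.circleAverage (fun z => ‖riemannZeta z‖ ^ 2)
      (((2 : ℝ) : ℂ) + (e * t : ℝ) * I) R = (2 * π)⁻¹ * ∫ θ in (0 : ℝ)..2 * π, G t θ := fun t => by
    rw [Real.circleAverage_def, smul_eq_mul]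
    simp only [hpt]
  have hint : IntegrableOn (Function.uncurry G)
      (Set.uIoc 4 (T + 1) ×ˢ Set.uIoc 0 (2 * π)) := by
    refine ((hGc.mono (Set.prod_mono le_rfl (Set.subset_univ _))).integrableOn_compact
      (isCompact_Icc.prod (isCompact_Icc (a := (0 : ℝ)) (b := 2 * π)))).mono_set ?_
    rw [Set.uIoc_of_le (by linarith), Set.uIoc_of_le Real.two_pi_pos.le]
    exact Set.prod_mono Set.Ioc_subset_Icc_self Set.Ioc_subset_Icc_self
  simp only [hca]
  constructor
  · refine IntervalIntegrable.const_mul ?_ _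
    rw [intervalIntegrable_iff]
    have h : Integrable (Function.uncurry G) ((volume.restrict (Set.uIoc 4 (T + 1))).prod
        (volume.restrict (Set.uIoc 0 (2 * π)))) := by
      rw [Measure.prod_restrict, ← Measure.volume_eq_prod]
      exact hint
    have h2 := h.integral_prod_left
    simp only [Function.uncurry_apply_pair] at h2
    rw [Set.uIoc_of_le Real.two_pi_pos.le] at h2
    simp only [intervalIntegral.integral_of_le Real.two_pi_pos.le]
    exact h2
  · rw [intervalIntegral.integral_const_mul, intervalIntegral_intervalIntegral_swap hint]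
    have hin : ∀ θ, ∫ t in (4 : ℝ)..(T + 1), G t θ ≤ C * (T + 3) := by
      intro θ
      obtain ⟨h1, h2⟩ := abs_le.1 (hb θ)
      rw [hG]
      simp only
      rw [intervalIntegral.integral_comp_add_right
        (fun u : ℝ => ‖riemannZeta ((2 + R * Real.cos θ : ℝ) + (u : ℂ) * I)‖ ^ 2)]
      have hc1 := (abs_le.1 (Real.abs_cos_le_one θ))
      have hup := hC (2 + R * Real.cos θ) (T + 3)
        (by nlinarith) (by nlinarith) (by linarith)
      refine le_trans ?_ hup
      refine intervalIntegral.integral_mono_interval (by linarith) (by linarith) (by linarith)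
        (Eventually.of_forall fun u => sq_nonneg _)
        (intervalIntegrable_zeta_sq _ two_pos (by linarith))
    have h2 : IntervalIntegrable (fun θ => ∫ t in (4 : ℝ)..(T + 1), G t θ) volume 0 (2 * π) := by
      rw [intervalIntegrable_iff]
      have h : Integrable (Function.uncurry G) ((volume.restrict (Set.uIoc 4 (T + 1))).prod
          (volume.restrict (Set.uIoc 0 (2 * π)))) := by
        rw [Measure.prod_restrict, ← Measure.volume_eq_prod]
        exact hint
      have h3 := h.integral_prod_right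
      simp only [Function.uncurry_apply_pair] at h3
      rw [Set.uIoc_of_le (show (4 : ℝ) ≤ T + 1 by linarith)] at h3
      simp only [intervalIntegral.integral_of_le (show (4 : ℝ) ≤ T + 1 by linarith)]
      exact h3
    refine (mul_le_mul_of_nonneg_left (intervalIntegral.integral_mono_on Real.two_pi_pos.le h2
      intervalIntegrable_const fun θ _ => hin θ) (by positivity)).trans (le_of_eq ?_)
    rw [intervalIntegral.integral_const, smul_eq_mul, sub_zero]
    field_simp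

/-- **`O (T)` zeros on one side**, in the form of finite sums. -/
theorem exists_sum_mult_le {σ : ℝ} (h0 : 1 / 2 < σ) (h1 : σ < 1) :
    ∃ K, 0 ≤ K ∧ ∀ (e T : ℝ) (F : Finset ℂ), (e = 1 ∨ e = -1) → 5 ≤ T →
      (∀ ρ ∈ F, σ ≤ ρ.re ∧ ρ.re ≤ 1 ∧ 5 ≤ e * ρ.im ∧ e * ρ.im ≤ T) →
      (∑ ρ ∈ F, (zetaMult ρ : ℝ)) ≤ K * T := by
  obtain ⟨d, hd⟩ : ∃ d, d = σ - 1 / 2 := ⟨_, rfl⟩
  obtain ⟨r, hr⟩ : ∃ r, r = 3 / 2 - 2 * d / 3 := ⟨_, rfl⟩
  obtain ⟨R, hR⟩ : ∃ R, R = 3 / 2 - d / 3 := ⟨_, rfl⟩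
  obtain ⟨h, hh⟩ : ∃ h, h = d / 3 := ⟨_, rfl⟩
  have hd0 : 0 < d := by linarith
  have hr0 : 0 < r := by linarith
  have hrR : r < R := by linarith
  have hh0 : 0 < h := by linarith
  obtain ⟨C, hC0, hC⟩ := exists_meanSquare_le (σ₀ := 1 / 2 + d / 3) (by linarith)
  obtain ⟨L, hL⟩ : ∃ L, L = Real.log (R / r) := ⟨_, rfl⟩
  have hL0 : 0 < L := hL ▸ Real.log_pos (by rwa [lt_div_iff₀ hr0, one_mul])
  refine ⟨(2 * C + 4) / (2 * h * L), by positivity, fun e T F he hT hF => ?_⟩
  classical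
  obtain ⟨hcai, hca⟩ := integral_circleAverage_le (R := R) (T := T) hC (by linarith) (by linarith)
    (by linarith) hT he
  obtain ⟨g, hg⟩ : ∃ g : ℂ → ℝ → ℝ, g = fun ρ =>
      (Set.Ioc (e * ρ.im - h) (e * ρ.im + h)).indicator fun _ => (zetaMult ρ : ℝ) * L :=
    ⟨_, rfl⟩
  have hgint : ∀ ρ, Integrable (g ρ) volume := fun ρ => by
    rw [hg]
    exact (integrable_indicator_iff measurableSet_Ioc).2
      (integrableOn_const (by simp))
  have hgI : ∀ ρ ∈ F, ∫ t in (4 : ℝ)..(T + 1), g ρ t = 2 * h * ((zetaMult ρ : ℝ) * L) := by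
    intro ρ hρ
    obtain ⟨-, -, h5, hT'⟩ := hF ρ hρ
    rw [hg, intervalIntegral.integral_of_le (by linarith), setIntegral_indicator measurableSet_Ioc,
      Set.Ioc_inter_Ioc, max_eq_right (by linarith), min_eq_right (by linarith),
      setIntegral_const, smul_eq_mul, Real.volume_real_Ioc_of_le (by linarith)]
    ring
  have hpt : ∀ t ∈ Set.Icc (4 : ℝ) (T + 1), ∑ ρ ∈ F, g ρ t ≤
      Real.circleAverage (fun z => ‖riemannZeta z‖ ^ 2)
        (((2 : ℝ) : ℂ) + (e * t : ℝ) * I) R + 2 := by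
    intro t ht
    have habs : |e| = 1 := by rcases he with h | h <;> simp [h]
    have hy : 2 ≤ |e * t| := by
      rw [abs_mul, habs, one_mul, abs_of_pos (by linarith [ht.1])]
      linarith [ht.1]
    refine le_trans (le_of_eq ?_) (mult_mul_log_le hy hr0 hrR (by linarith)
      (F.filter fun ρ => t ∈ Set.Ioc (e * ρ.im - h) (e * ρ.im + h)) fun ρ hρ => ?_)
    · rw [← hL, sum_mul, sum_filter, hg]
      exact sum_congr rfl fun ρ _ => by simp [Set.indicator_apply]
    · obtain ⟨hρF, hρt⟩ := mem_filter.1 hρ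
      obtain ⟨hre, hre1, -, -⟩ := hF ρ hρF
      refine (Complex.norm_le_abs_re_add_abs_im _).trans ?_
      have e1 : (((2 : ℝ) : ℂ) + (e * t : ℝ) * I - ρ).re = 2 - ρ.re := by simp
      have e2 : |(((2 : ℝ) : ℂ) + (e * t : ℝ) * I - ρ).im| = |t - e * ρ.im| := by
        have : (((2 : ℝ) : ℂ) + (e * t : ℝ) * I - ρ).im = e * t - ρ.im := by simp
        rw [this]
        rcases he with rfl | rfl
        · simp
        · rw [← abs_neg]; ring_nf
      rw [e1, e2, abs_of_pos (by linarith)]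
      have : |t - e * ρ.im| ≤ h := abs_le.2 ⟨by linarith [hρt.1], by linarith [hρt.2]⟩
      linarith
  have hm := intervalIntegral.integral_mono_on (show (4 : ℝ) ≤ T + 1 by linarith)
    (IntervalIntegrable.sum F fun ρ _ => (hgint ρ).intervalIntegrable)
    (hcai.add intervalIntegrable_const) fun t ht => by
      simpa only [Finset.sum_apply] using hpt t ht
  rw [intervalIntegral.integral_add hcai intervalIntegrable_const,
    intervalIntegral.integral_const, smul_eq_mul] at hm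
  simp only [Finset.sum_apply] at hm
  rw [intervalIntegral.integral_finsetSum fun ρ _ => (hgint ρ).intervalIntegrable,
    sum_congr rfl hgI, ← mul_sum, ← sum_mul] at hm
  rw [div_mul_eq_mul_div, le_div_iff₀ (by positivity)]
  nlinarith [mul_le_mul_of_nonneg_left (show T + 3 ≤ 2 * T by linarith) hC0]

/-- The zeros in `(0, T]` at distance at least `ε` from the critical line. -/
def offLineCount (ε T : ℝ) : ℕ :=
  ∑ ρ ∈ (finite_zetaZeros T).toFinset.filter (fun ρ => ε ≤ |ρ.re - 1 / 2|), zetaMult ρ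

/-- `N (σ, T)`. -/
def rightCount (σ T : ℝ) : ℕ :=
  ∑ ρ ∈ (finite_zetaZeros T).toFinset.filter (fun ρ => σ ≤ ρ.re), zetaMult ρ

theorem sum_low_le (T : ℝ) :
    ∑ ρ ∈ (finite_zetaZeros T).toFinset.filter (fun ρ => ρ.im < 5), zetaMult ρ ≤ zeroCount 5 := by
  refine sum_le_sum_of_subset fun ρ hρ => ?_
  rw [mem_filter, Set.Finite.mem_toFinset] at hρ
  rw [Set.Finite.mem_toFinset]
  obtain ⟨⟨a, b, c, d, -⟩, e⟩ := hρ
  exact ⟨a, b, c, d, e.le⟩

/-- **`N (σ, T) = O (T)` for `σ > 1/2`** (Bohr–Landau). -/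
theorem exists_rightCount_le {σ : ℝ} (h0 : 1 / 2 < σ) :
    ∃ K, 0 ≤ K ∧ ∀ T, 1 ≤ T → (rightCount σ T : ℝ) ≤ K * T := by
  obtain ⟨s, hs⟩ : ∃ s, s = min σ (3 / 4) := ⟨_, rfl⟩
  have hs0 : 1 / 2 < s := hs ▸ lt_min h0 (by norm_num)
  have hs1 : s < 1 := hs ▸ (min_le_right _ _).trans_lt (by norm_num)
  obtain ⟨K, hK0, hK⟩ := exists_sum_mult_le hs0 hs1
  refine ⟨5 * K + zeroCount 5, by positivity, fun T hT => ?_⟩
  obtain ⟨Z, hZ⟩ : ∃ Z, Z = (finite_zetaZeros T).toFinset.filter (fun ρ => σ ≤ ρ.re) := ⟨_, rfl⟩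
  rw [rightCount, ← hZ, ← sum_filter_add_sum_filter_not Z (fun ρ => ρ.im < 5), Nat.cast_add]
  have h5 : (1 : ℝ) ≤ max T 5 := hT.trans (le_max_left _ _)
  have hlow : ∑ ρ ∈ Z.filter (fun ρ => ρ.im < 5), zetaMult ρ ≤ zeroCount 5 := by
    refine le_trans (sum_le_sum_of_subset ?_) (sum_low_le T)
    exact filter_subset_filter _ (hZ ▸ filter_subset _ _)
  have hhigh := hK 1 (max T 5) (Z.filter fun ρ => ¬ρ.im < 5) (Or.inl rfl) (le_max_right _ _)
    fun ρ hρ => by
      rw [mem_filter, hZ, mem_filter, Set.Finite.mem_toFinset, not_lt] at hρ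
      obtain ⟨⟨⟨-, -, hb, -, hT'⟩, hσ⟩, h⟩ := hρ
      rw [one_mul]
      exact ⟨hs ▸ (min_le_left _ _).trans hσ, hb.le, h, hT'.trans (le_max_left _ _)⟩
  have hmax : max T 5 ≤ 5 * T := max_le (by linarith) (by linarith)
  have h2 : (zeroCount 5 : ℝ) ≤ zeroCount 5 * T := le_mul_of_one_le_right (Nat.cast_nonneg _) hT
  rw [add_mul, Nat.cast_sum (Z.filter fun ρ => ¬ρ.im < 5)]
  have := mul_le_mul_of_nonneg_left hmax hK0
  linarith [(Nat.cast_le (α := ℝ)).2 hlow]

theorem zetaMult_one_sub {ρ : ℂ} (h0 : 0 < ρ.re) (h1 : ρ.re < 1) :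
    zetaMult (1 - ρ) = zetaMult ρ := by
  have hne : ρ ≠ 1 := fun h => by rw [h] at h1; simp at h1
  have hne' : (1 : ℂ) - ρ ≠ 1 := fun h => by
    rw [sub_eq_self] at h; rw [h] at h0; simp at h0
  rw [zetaMult, zetaMult, ← analyticOrderNatAt_xiFn h0 hne,
    ← analyticOrderNatAt_xiFn (by rw [sub_re, one_re]; linarith) hne', analyticOrderNatAt_one_sub]

/-- **`O_ε (T)` zeros off the critical line.** -/
theorem exists_offLineCount_le {ε : ℝ} (hε : 0 < ε) :
    ∃ K, 0 ≤ K ∧ ∀ T, 1 ≤ T → (offLineCount ε T : ℝ) ≤ K * T := by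
  obtain ⟨K, hK0, hK⟩ := exists_rightCount_le (σ := 1 / 2 + ε) (by linarith)
  obtain ⟨s, hs⟩ : ∃ s, s = min (1 / 2 + ε) (3 / 4) := ⟨_, rfl⟩
  have hs0 : 1 / 2 < s := hs ▸ lt_min (by linarith) (by norm_num)
  have hs1 : s < 1 := hs ▸ (min_le_right _ _).trans_lt (by norm_num)
  obtain ⟨K', hK0', hK'⟩ := exists_sum_mult_le hs0 hs1
  refine ⟨K + (5 * K' + zeroCount 5), by positivity, fun T hT => ?_⟩
  classical
  obtain ⟨Z, hZ⟩ : ∃ Z, Z = (finite_zetaZeros T).toFinset := ⟨_, rfl⟩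
  have hsub : offLineCount ε T ≤ rightCount (1 / 2 + ε) T +
      ∑ ρ ∈ Z.filter (fun ρ => ρ.re ≤ 1 / 2 - ε), zetaMult ρ := by
    rw [offLineCount, rightCount, ← hZ, ← sum_union_inter]
    refine le_trans (sum_le_sum_of_subset fun ρ hρ => ?_) (Nat.le_add_right _ _)
    rw [mem_filter] at hρ
    rw [mem_union, mem_filter, mem_filter]
    rcases le_or_gt 0 (ρ.re - 1 / 2) with h | h
    · rw [abs_of_nonneg h] at hρ
      exact Or.inl ⟨hρ.1, by linarith [hρ.2]⟩
    · rw [abs_of_neg h] at hρ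
      exact Or.inr ⟨hρ.1, by linarith [hρ.2]⟩
  obtain ⟨L, hL⟩ : ∃ L, L = Z.filter (fun ρ => ρ.re ≤ 1 / 2 - ε) := ⟨_, rfl⟩
  rw [← hL] at hsub
  have hlow : ∑ ρ ∈ L.filter (fun ρ => ρ.im < 5), zetaMult ρ ≤ zeroCount 5 := by
    refine le_trans (sum_le_sum_of_subset ?_) (sum_low_le T)
    exact filter_subset_filter _ (hL ▸ hZ ▸ filter_subset _ _)
  have hhigh := hK' (-1) (max T 5) ((L.filter fun ρ => ¬ρ.im < 5).image fun ρ => 1 - ρ)
    (Or.inr rfl) (le_max_right _ _) fun ρ' hρ' => by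
      obtain ⟨ρ, hρ, rfl⟩ := mem_image.1 hρ'
      rw [mem_filter, hL, mem_filter, hZ, Set.Finite.mem_toFinset, not_lt] at hρ
      obtain ⟨⟨⟨-, ha, -, -, hT'⟩, hσ⟩, h⟩ := hρ
      simp only [sub_re, one_re, sub_im, one_im, zero_sub, mul_neg, neg_mul, neg_neg, one_mul]
      exact ⟨hs ▸ (min_le_left _ _).trans (by linarith), by linarith, h,
        hT'.trans (le_max_left _ _)⟩
  rw [sum_image fun a _ b _ h => sub_right_injective h] at hhigh
  have heq : ∑ ρ ∈ L.filter (fun ρ => ¬ρ.im < 5), (zetaMult (1 - ρ) : ℝ) =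
      ∑ ρ ∈ L.filter (fun ρ => ¬ρ.im < 5), (zetaMult ρ : ℝ) := sum_congr rfl fun ρ hρ => by
    rw [mem_filter, hL, mem_filter, hZ, Set.Finite.mem_toFinset] at hρ
    rw [zetaMult_one_sub hρ.1.1.2.1 hρ.1.1.2.2.1]
  simp only [heq] at hhigh
  have hmax : max T 5 ≤ 5 * T := max_le (by linarith) (by linarith)
  have h2 : (zeroCount 5 : ℝ) ≤ zeroCount 5 * T := le_mul_of_one_le_right (Nat.cast_nonneg _) hT
  have h3 := (Nat.cast_le (α := ℝ)).2 hsub
  rw [Nat.cast_add, ← sum_filter_add_sum_filter_not L (fun ρ => ρ.im < 5), Nat.cast_add,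
    Nat.cast_sum (L.filter fun ρ => ¬ρ.im < 5)] at h3
  have h4 := hK T hT
  have := mul_le_mul_of_nonneg_left hmax hK0'
  linarith [(Nat.cast_le (α := ℝ)).2 hlow]

end FA.BohrLandau
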